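import Mathlib
import Fermat.Prelude.Def_GaloisRep_Adic

/-!
# Item 30 (S31), package (C): Carayol's lemma (helper21)

* `CY_burnside_alg`, `CY_burnside` : Burnside's theorem (via Jacobson density and Schur's lemma):
  the image of an irreducible finite-dimensional representation over an algebraically closed
  field spans the endomorphism algebra.
* `CY_span_of_baseChange` : descent of the spanning property along a field extension.
* `CY_span_of_residue`    : lift of the spanning property from the residue field of a local ring
  (Nakayama).
* `CY_span_residual`, `CY_span` : for an absolutely irreducible residual representation, the image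
  of the Galois group spans `End`.
* `CY_trace_zero` : if `tr (X ∘ ρ g) = 0` for all `g` then `X = 0`.
* `CY_eq_one`     : if `tr ρ (g τ) = tr ρ g` for all `g` then `ρ τ = 1`.
* `CY_unramified` : trace-invariance under inertia implies unramified.
-/

set_option autoImplicit false

namespace Fermat.Agent.S31

open Module
open scoped TensorProduct

section Alg

variable (k : Type*) {A V : Type*} [Field k] [Ring A] [Algebra k A] [AddCommGroup V] [Module k V]
  [Module A V] [IsScalarTower k A V]
  [IsSimpleModule A V] [FiniteDimensional k V] [IsAlgClosed k]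

/-- **Burnside's theorem** for algebra representations: a simple finite-dimensional module over
an algebra over an algebraically closed field: every `k`-linear endomorphism is the action of
an element of the algebra. -/
theorem CY_burnside_alg (f : Module.End k V) : ∃ a : A, ∀ v : V, f v = a • v := by
  have hschur := IsSimpleModule.algebraMap_end_bijective_of_isAlgClosed (A := A) (V := V) k
  have hfin : Module.Finite (Module.End A V) V :=
    Module.Finite.of_restrictScalars_finite k (Module.End A V) V
  -- `f` is linear over `End_A V`
  let f' : Module.End (Module.End A V) V :=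
    { toFun := f
      map_add' := f.map_add
      map_smul' := by
        intro e v
        obtain ⟨c, rfl⟩ := hschur.2 e
        simp }
  obtain ⟨a, ha⟩ := Module.Finite.toModuleEnd_moduleEnd_surjective (R := A) (M := V) f'
  refine ⟨a, fun v => ?_⟩
  have := congrArg (fun g => g v) ha
  exact this.symm

end Alg

section Group

variable {K G V : Type*} [Field K] [IsAlgClosed K] [Monoid G] [AddCommGroup V] [Module K V]
  [FiniteDimensional K V] [Nontrivial V]

/-- **Burnside's theorem**: the image of an irreducible finite-dimensional representation over an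
algebraically closed field spans the endomorphism algebra. -/
theorem CY_burnside (ρ : G →* Module.End K V)
    (hirr : ∀ W : Submodule K V, (∀ g : G, ∀ x ∈ W, ρ g x ∈ W) → W = ⊥ ∨ W = ⊤) :
    Submodule.span K (Set.range ρ) = ⊤ := by
  set A : Subalgebra K (Module.End K V) := Algebra.adjoin K (Set.range ρ) with hA
  have hAspan : Subalgebra.toSubmodule A = Submodule.span K (Set.range ρ) := by
    rw [hA, Algebra.adjoin_eq_span]
    congr 1
    have : (Set.range ρ) = ((MonoidHom.mrange ρ : Submonoid (Module.End K V)) : Set _) := by
      ext x; simp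
    rw [this, Submonoid.closure_eq]
  have hsmul : ∀ (a : A) (v : V), a • v = (a : Module.End K V) v := fun a v => rfl
  have hsimple : IsSimpleModule A V := by
    rw [isSimpleModule_iff]
    refine ⟨?_⟩
    intro N
    have h1 := hirr (N.restrictScalars K) (fun g x hx => by
      have hmem : ρ g ∈ A := Algebra.subset_adjoin ⟨g, rfl⟩
      have := N.smul_mem (⟨ρ g, hmem⟩ : A) hx
      exact this)
    rcases h1 with h | h
    · left
      apply Submodule.restrictScalars_injective K
      rw [h]
      rfl
    · right
      apply Submodule.restrictScalars_injective K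
      rw [h]
      rfl
  rw [eq_top_iff, ← hAspan]
  intro f _
  obtain ⟨a, ha⟩ := CY_burnside_alg K (A := A) (V := V) f
  have : f = (a : Module.End K V) := LinearMap.ext fun v => by rw [ha v, hsmul]
  rw [this]
  exact a.2

end Group

section Descent

variable {k K V : Type*} [Field k] [Field K] [Algebra k K] [AddCommGroup V] [Module k V]
  [FiniteDimensional k V]

/-- if the base changes of the elements of `S` span `End_K (K ⊗ V)`, then `S` spans `End_k V`. -/
theorem CY_span_of_baseChange (S : Set (Module.End k V))
    (h : Submodule.span K ((fun f : Module.End k V => f.baseChange K) '' S) = ⊤) :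
    Submodule.span k S = ⊤ := by
  set W := Submodule.span k S with hW
  let b := Module.finBasis k W
  let β : (V →ₗ[k] V) →ₗ[k] (K ⊗[k] V →ₗ[K] K ⊗[k] V) := LinearMap.baseChangeHom k K V V
  have hβ : ∀ f : V →ₗ[k] V, β f = f.baseChange K := fun f => rfl
  -- the images of the basis of `W` span
  have hle : Submodule.span K ((fun f : Module.End k V => f.baseChange K) '' S) ≤
      Submodule.span K (Set.range fun i => β (b i : Module.End k V)) := by
    rw [Submodule.span_le]
    rintro _ ⟨f, hf, rfl⟩
    have hfW : f ∈ W := Submodule.subset_span hf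
    have hrepr := b.sum_repr ⟨f, hfW⟩
    have h1 : f = ∑ i, (b.repr ⟨f, hfW⟩ i) • (b i : Module.End k V) := by
      have := congrArg (Subtype.val) hrepr
      simp only [Submodule.coe_sum, Submodule.coe_smul] at this
      exact this.symm
    show f.baseChange K ∈ _
    rw [← hβ, h1, map_sum]
    refine Submodule.sum_mem _ fun i _ => ?_
    rw [map_smul, ← algebraMap_smul K (b.repr ⟨f, hfW⟩ i)]
    exact Submodule.smul_mem _ _ (Submodule.subset_span ⟨i, rfl⟩)
  rw [h, top_le_iff] at hle
  have h2 : Module.finrank K (K ⊗[k] V →ₗ[K] K ⊗[k] V) ≤ Module.finrank k W := by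
    have := finrank_range_le_card (R := K) (fun i => β (b i : Module.End k V))
    rw [Set.finrank, hle, finrank_top, Fintype.card_fin] at this
    exact this
  have h3 : Module.finrank K (K ⊗[k] V →ₗ[K] K ⊗[k] V) = Module.finrank k (V →ₗ[k] V) := by
    rw [Module.finrank_linearMap, Module.finrank_linearMap, Module.finrank_baseChange]
  rw [h3] at h2
  exact Submodule.eq_top_of_finrank_eq (le_antisymm (Submodule.finrank_le W) h2)

end Descent

section Nakayama

variable {T V : Type*} [CommRing T] [IsLocalRing T] [AddCommGroup V] [Module T V]
  [Module.Free T V] [Module.Finite T V]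

/-- an endomorphism that vanishes modulo the maximal ideal lies in `𝔪 • End`. -/
theorem CY_mem_smul_of_baseChange_eq_zero (Z : Module.End T V)
    (hZ : Z.baseChange (IsLocalRing.ResidueField T) = 0) :
    Z ∈ (IsLocalRing.maximalIdeal T) • (⊤ : Submodule T (Module.End T V)) := by
  classical
  let b := Module.Free.chooseBasis T V
  have hentry : ∀ i j, LinearMap.toMatrix b b Z i j ∈ IsLocalRing.maximalIdeal T := by
    intro i j
    have h1 := LinearMap.toMatrix_baseChange (A := IsLocalRing.ResidueField T) Z b b
    rw [hZ, map_zero] at h1
    have h2 := congrFun (congrFun h1 i) j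
    rw [Matrix.map_apply, Matrix.zero_apply] at h2
    rw [← IsLocalRing.residue_eq_zero_iff]
    exact h2.symm
  have hsingle : ∀ (i j : Module.Free.ChooseBasisIndex T V) (c : T),
      Matrix.toLin b b (Matrix.single i j c) = c • Matrix.toLin b b (Matrix.single i j (1 : T)) := by
    intro i j c
    rw [← map_smul]
    congr 1
    ext i' j'
    simp [Matrix.single, Matrix.smul_apply]
  have hsum : Z = ∑ i, ∑ j, (LinearMap.toMatrix b b Z i j) •
      Matrix.toLin b b (Matrix.single i j (1 : T)) := by
    calc Z = Matrix.toLin b b (LinearMap.toMatrix b b Z) := (Matrix.toLin_toMatrix b b Z).symm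
      _ = Matrix.toLin b b (∑ i, ∑ j, Matrix.single i j (LinearMap.toMatrix b b Z i j)) := by
          rw [← Matrix.matrix_eq_sum_single]
      _ = ∑ i, ∑ j, (LinearMap.toMatrix b b Z i j) •
            Matrix.toLin b b (Matrix.single i j (1 : T)) := by
          rw [map_sum]
          refine Finset.sum_congr rfl fun i _ => ?_
          rw [map_sum]
          exact Finset.sum_congr rfl fun j _ => hsingle i j _
  rw [hsum]
  exact Submodule.sum_mem _ fun i _ => Submodule.sum_mem _ fun j _ =>
    Submodule.smul_mem_smul (hentry i j) Submodule.mem_top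

/-- **Nakayama**: if the reductions of the elements of `S` span `End_k (k ⊗ V)`, then `S` spans
`End_T V`. -/
theorem CY_span_of_residue (S : Set (Module.End T V))
    (h : Submodule.span (IsLocalRing.ResidueField T)
      ((fun f : Module.End T V => f.baseChange (IsLocalRing.ResidueField T)) '' S) = ⊤) :
    Submodule.span T S = ⊤ := by
  have key : ∀ X : Module.End (IsLocalRing.ResidueField T) (IsLocalRing.ResidueField T ⊗[T] V),
      ∃ Y ∈ Submodule.span T S, Y.baseChange (IsLocalRing.ResidueField T) = X := by
    intro X
    have hX : X ∈ Submodule.span (IsLocalRing.ResidueField T)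
        ((fun f : Module.End T V => f.baseChange (IsLocalRing.ResidueField T)) '' S) := by
      rw [h]
      trivial
    induction hX using Submodule.span_induction with
    | mem x hx =>
      obtain ⟨f, hf, rfl⟩ := hx
      exact ⟨f, Submodule.subset_span hf, rfl⟩
    | zero => exact ⟨0, zero_mem _, LinearMap.baseChange_zero⟩
    | add x y _ _ hx hy =>
      obtain ⟨Y₁, h1, rfl⟩ := hx
      obtain ⟨Y₂, h2, rfl⟩ := hy
      exact ⟨Y₁ + Y₂, add_mem h1 h2, LinearMap.baseChange_add Y₁ Y₂⟩
    | smul c x _ hx =>
      obtain ⟨Y, hY, rfl⟩ := hx
      obtain ⟨t, rfl⟩ := IsLocalRing.residue_surjective c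
      refine ⟨t • Y, Submodule.smul_mem _ _ hY, ?_⟩
      rw [LinearMap.baseChange_smul]
      ext v
      simp [Algebra.smul_def, TensorProduct.smul_tmul']
  apply le_antisymm le_top
  apply Submodule.le_of_le_smul_of_le_jacobson_bot (I := IsLocalRing.maximalIdeal T)
    Module.Finite.fg_top (IsLocalRing.maximalIdeal_le_jacobson ⊥)
  intro X _
  obtain ⟨Y, hY, hYX⟩ := key (X.baseChange (IsLocalRing.ResidueField T))
  have h1 : X - Y ∈ (IsLocalRing.maximalIdeal T) • (⊤ : Submodule T (Module.End T V)) :=
    CY_mem_smul_of_baseChange_eq_zero _ (by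
      rw [LinearMap.baseChange_sub, hYX]
      ext v
      simp)
  have hX : X = Y + (X - Y) := by abel
  rw [hX]
  exact Submodule.add_mem_sup hY h1

omit [IsLocalRing T] in
/-- the trace form on `End_T V` is nondegenerate. -/
theorem CY_eq_zero_of_trace_mul (X : Module.End T V)
    (h : ∀ Y : Module.End T V, LinearMap.trace T V (X * Y) = 0) : X = 0 := by
  classical
  let b := Module.Free.chooseBasis T V
  have h1 : LinearMap.toMatrix b b X = 0 := by
    rw [Matrix.ext_iff_trace_mul_right]
    intro M
    have := h (Matrix.toLin b b M)
    rw [LinearMap.trace_eq_matrix_trace T b, LinearMap.toMatrix_mul,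
      LinearMap.toMatrix_toLin] at this
    rw [this, Matrix.zero_mul, Matrix.trace_zero]
  have := congrArg (Matrix.toLin b b) h1
  rwa [Matrix.toLin_toMatrix, map_zero] at this

end Nakayama

section Galois

local notation "Γℚ" => (AlgebraicClosure ℚ ≃ₐ[ℚ] AlgebraicClosure ℚ)

/-- the image of an absolutely irreducible residual representation spans `End`. -/
theorem CY_span_residual {k : Type} [Field k] (ρ : ResidualGaloisRep k)
    (habs : ρ.IsAbsolutelyIrreducible) :
    Submodule.span k (Set.range ρ.ρ) = ⊤ := by
  apply CY_span_of_baseChange (K := AlgebraicClosure k)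
  have hnt : Nontrivial (ρ.baseChange (AlgebraicClosure k)).V := by
    apply Module.nontrivial_of_finrank_pos (R := AlgebraicClosure k)
    rw [(ρ.baseChange (AlgebraicClosure k)).finrank_eq]
    norm_num
  have h1 := CY_burnside (ρ.baseChange (AlgebraicClosure k)).ρ habs
  rw [← Set.range_comp]
  exact h1

variable {T : Type} [CommRing T] [IsLocalRing T]

/-- **Carayol (i)**: if the residual representation is absolutely irreducible, the image of the
Galois group spans `End_T V`. -/
theorem CY_span (ρ : GaloisRepAdic T) (habs : ρ.residual.IsAbsolutelyIrreducible) :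
    Submodule.span T (Set.range ρ.ρ) = ⊤ := by
  apply CY_span_of_residue
  have h1 := CY_span_residual ρ.residual habs
  rw [← Set.range_comp]
  exact h1

/-- **Carayol (ii)**: an endomorphism orthogonal to the image of Galois for the trace form is
zero. -/
theorem CY_trace_zero (ρ : GaloisRepAdic T) (habs : ρ.residual.IsAbsolutelyIrreducible)
    (X : Module.End T ρ.V) (h : ∀ g : Γℚ, LinearMap.trace T ρ.V (X * ρ.ρ g) = 0) : X = 0 := by
  apply CY_eq_zero_of_trace_mul
  intro Y
  have hY : Y ∈ Submodule.span T (Set.range ρ.ρ) := by
    rw [CY_span ρ habs]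
    trivial
  induction hY using Submodule.span_induction with
  | mem x hx =>
    obtain ⟨g, rfl⟩ := hx
    exact h g
  | zero => rw [mul_zero, map_zero]
  | add x y _ _ hx hy => rw [mul_add, map_add, hx, hy, add_zero]
  | smul c x _ hx => rw [mul_smul_comm, map_smul, hx, smul_zero]

/-- **Carayol (iii)**: if `tr ρ (g τ) = tr ρ g` for all `g`, then `ρ τ = 1`. -/
theorem CY_eq_one (ρ : GaloisRepAdic T) (habs : ρ.residual.IsAbsolutelyIrreducible)
    (τ : Γℚ) (h : ∀ g : Γℚ, ρ.trace (g * τ) = ρ.trace g) : ρ.ρ τ = 1 := by
  have h1 : ρ.ρ τ - 1 = 0 := by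
    apply CY_trace_zero ρ habs
    intro g
    have h2 := h g
    unfold GaloisRepAdic.trace at h2
    rw [map_mul, LinearMap.trace_mul_comm] at h2
    rw [sub_mul, one_mul, map_sub, h2, sub_self]
  exact sub_eq_zero.1 h1

/-- trace-invariance under inertia at `q` implies that `ρ` is unramified at `q`. -/
theorem CY_unramified (ρ : GaloisRepAdic T) (habs : ρ.residual.IsAbsolutelyIrreducible) (q : ℕ)
    (h : ∀ P : ValuationSubring (AlgebraicClosure ℚ), P.LiesOverPrime q →
      ∀ τ ∈ P.inertiaSubgroupIn ℚ, ∀ g : Γℚ, ρ.trace (g * τ) = ρ.trace g) :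
    ρ.IsUnramifiedAt q :=
  fun P hP τ hτ => CY_eq_one ρ habs τ (h P hP τ hτ)

end Galois

end Fermat.Agent.S31
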