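import Mathlib

/-!
# Item 30 (S31), package (P) (helper2): Lucas sequences / power sums

* `LUC_V P Q m`: the Lucas sequence `V_0 = 2`, `V_1 = P`, `V_{m+2} = P V_{m+1} - Q V_m` in any ring.
* `LUC_V_map`: compatibility with ring homomorphisms.
* `LUC_pow_add_pow`: for commuting `F, F'`: `F^m + F'^m = V_m(F + F', F F')`.
* `LUC_pow_add_pow_of_quadratic`: if `F² - T F + Q = 0` with `T` commuting with `F`, then
  `F^m + (T - F)^m = V_m(T, Q)`.
* `LUC_trace_pow`: for an endomorphism `f` of a free module of rank 2 over a commutative ring,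
  `tr (f^m) = V_m(tr f, det f)`; matrix version `LUC_matrix_trace_pow`.
* `LUC_trace_of_charpoly`, `LUC_det_of_charpoly`: read off trace and determinant from
  `charpoly f = X² - a X + b`.
-/

set_option autoImplicit false

namespace Fermat.Agent.S31

open Polynomial

section Def

variable {R : Type*} [Ring R]

/-- the Lucas sequence `V_m(P, Q)`. -/
def LUC_V (P Q : R) : ℕ → R
  | 0 => 2
  | 1 => P
  | (m + 2) => P * LUC_V P Q (m + 1) - Q * LUC_V P Q m

@[simp] theorem LUC_V_zero (P Q : R) : LUC_V P Q 0 = 2 := rfl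

@[simp] theorem LUC_V_one (P Q : R) : LUC_V P Q 1 = P := rfl

theorem LUC_V_add_two (P Q : R) (m : ℕ) :
    LUC_V P Q (m + 2) = P * LUC_V P Q (m + 1) - Q * LUC_V P Q m := rfl

theorem LUC_V_two (P Q : R) : LUC_V P Q 2 = P * P - Q * 2 := rfl

theorem LUC_V_map {R' : Type*} [Ring R'] (f : R →+* R') (P Q : R) (m : ℕ) :
    f (LUC_V P Q m) = LUC_V (f P) (f Q) m := by
  induction m using Nat.strong_induction_on with
  | _ m ih =>
    match m, ih with
    | 0, _ => rw [LUC_V_zero, LUC_V_zero, map_ofNat]
    | 1, _ => simp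
    | (k + 2), ih =>
      rw [LUC_V_add_two, LUC_V_add_two, map_sub, map_mul, map_mul, ih (k + 1) (by omega),
        ih k (by omega)]

/-- **power sums**: for commuting `F`, `F'`, `F^m + F'^m = V_m(F + F', F F')`. -/
theorem LUC_pow_add_pow {F F' : R} (h : Commute F F') (m : ℕ) :
    F ^ m + F' ^ m = LUC_V (F + F') (F * F') m := by
  induction m using Nat.strong_induction_on with
  | _ m ih =>
    match m, ih with
    | 0, _ => rw [pow_zero, pow_zero, LUC_V_zero, one_add_one_eq_two]
    | 1, _ => simp
    | (k + 2), ih =>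
      rw [LUC_V_add_two, ← ih (k + 1) (by omega), ← ih k (by omega)]
      have h1 : F' * F ^ (k + 1) = F * F' * F ^ k := by
        rw [pow_succ', ← mul_assoc, h.eq]
      have h2 : F * F' ^ (k + 1) = F * F' * F' ^ k := by
        rw [pow_succ', ← mul_assoc]
      rw [add_mul, mul_add, mul_add, mul_add, h1, h2, pow_succ' F (k + 1), pow_succ' F' (k + 1)]
      abel

/-- if `F² - T F + Q = 0` and `T` commutes with `F`, then `F^m + (T - F)^m = V_m(T, Q)`. -/
theorem LUC_pow_add_pow_of_quadratic {F T Q : R} (hT : Commute T F)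
    (hq : F ^ 2 - T * F + Q = 0) (m : ℕ) :
    F ^ m + (T - F) ^ m = LUC_V T Q m := by
  have hc : Commute F (T - F) := (hT.symm).sub_right (Commute.refl F)
  have hsum : F + (T - F) = T := by abel
  have hprod : F * (T - F) = Q := by
    have : F * (T - F) = -(F ^ 2 - T * F) := by
      rw [mul_sub, hT.symm.eq, pow_two]
      abel
    rw [this, ← add_eq_zero_iff_neg_eq.mp hq]
  rw [LUC_pow_add_pow hc, hsum, hprod]

/-- variant with an invertible `F`: `T - F = Q F⁻¹`. -/
theorem LUC_sub_eq_mul_inv {F T Q : R}
    (hq : F ^ 2 - T * F + Q = 0) (G : R) (hG : F * G = 1) :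
    T - F = Q * G := by
  have hprod : (T - F) * F = Q := by
    have : (T - F) * F = -(F ^ 2 - T * F) := by
      rw [sub_mul, pow_two]
      abel
    rw [this, ← add_eq_zero_iff_neg_eq.mp hq]
  rw [← hprod, mul_assoc, hG, mul_one]

end Def

section Rank2

variable {R : Type*} [CommRing R] [Nontrivial R]

theorem LUC_matrix_sq (A : Matrix (Fin 2) (Fin 2) R) :
    A ^ 2 = A.trace • A - A.det • (1 : Matrix (Fin 2) (Fin 2) R) := by
  have h := Matrix.aeval_self_charpoly A
  rw [Matrix.charpoly_fin_two] at h
  simp only [map_add, map_sub, map_pow, aeval_X, map_mul, aeval_C,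
    Algebra.algebraMap_eq_smul_one, smul_mul_assoc, one_mul] at h
  rw [sub_add_eq_add_sub, sub_eq_zero] at h
  rw [← h]
  abel

/-- `tr (A^m) = V_m(tr A, det A)` for `2 × 2` matrices. -/
theorem LUC_matrix_trace_pow (A : Matrix (Fin 2) (Fin 2) R) (m : ℕ) :
    (A ^ m).trace = LUC_V A.trace A.det m := by
  induction m using Nat.strong_induction_on with
  | _ m ih =>
    match m, ih with
    | 0, _ => simp [Matrix.trace_one]
    | 1, _ => simp
    | (k + 2), ih =>
      rw [LUC_V_add_two, ← ih (k + 1) (by omega), ← ih k (by omega)]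
      have h : A ^ (k + 2) = A.trace • A ^ (k + 1) - A.det • A ^ k := by
        rw [pow_add, LUC_matrix_sq, mul_sub, mul_smul_comm, mul_smul_comm, mul_one, ← pow_succ]
      rw [h, Matrix.trace_sub, Matrix.trace_smul, Matrix.trace_smul, smul_eq_mul, smul_eq_mul]

variable {V : Type*} [AddCommGroup V] [Module R V] [Module.Free R V] [Module.Finite R V]

/-- `tr (f^m) = V_m(tr f, det f)` for an endomorphism of a free module of rank `2`. -/
theorem LUC_trace_pow (hV : Module.finrank R V = 2) (f : Module.End R V) (m : ℕ) :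
    LinearMap.trace R V (f ^ m) = LUC_V (LinearMap.trace R V f) (LinearMap.det f) m := by
  classical
  let b : Module.Basis (Fin 2) R V := Module.finBasisOfFinrankEq R V hV
  have h1 : ∀ g : Module.End R V, LinearMap.trace R V g = (LinearMap.toMatrix b b g).trace :=
    fun g => LinearMap.trace_eq_matrix_trace R b g
  have h2 : LinearMap.det f = (LinearMap.toMatrix b b f).det :=
    (LinearMap.det_toMatrix b f).symm
  have h3 : LinearMap.toMatrix b b (f ^ m) = (LinearMap.toMatrix b b f) ^ m :=
    (LinearMap.toMatrix_pow b f m).symm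
  rw [h1, h1, h2, h3, LUC_matrix_trace_pow]

theorem LUC_charpoly_eq (hV : Module.finrank R V = 2) (f : Module.End R V) :
    LinearMap.charpoly f = X ^ 2 - C (LinearMap.trace R V f) * X + C (LinearMap.det f) := by
  classical
  let b : Module.Basis (Fin 2) R V := Module.finBasisOfFinrankEq R V hV
  rw [← LinearMap.charpoly_toMatrix f b, Matrix.charpoly_fin_two,
    LinearMap.trace_eq_matrix_trace R b f, LinearMap.det_toMatrix b f]

theorem LUC_trace_of_charpoly (hV : Module.finrank R V = 2) (f : Module.End R V)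
    (a c : R) (h : LinearMap.charpoly f = X ^ 2 - C a * X + C c) :
    LinearMap.trace R V f = a := by
  have h' := LUC_charpoly_eq hV f
  rw [h] at h'
  have := congrArg (fun p : R[X] => p.coeff 1) h'
  simp only [coeff_add, coeff_sub, coeff_X_pow, coeff_C_mul, coeff_X_one, coeff_C] at this
  simpa using this.symm

theorem LUC_det_of_charpoly (hV : Module.finrank R V = 2) (f : Module.End R V)
    (a c : R) (h : LinearMap.charpoly f = X ^ 2 - C a * X + C c) :
    LinearMap.det f = c := by
  have h' := LUC_charpoly_eq hV f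
  rw [h] at h'
  have := congrArg (fun p : R[X] => p.coeff 0) h'
  simp only [coeff_add, coeff_sub, coeff_X_pow, coeff_C_mul, coeff_X_zero, coeff_C] at this
  simpa using this.symm

/-- at an element whose characteristic polynomial is `X² - aX + c`: `tr (f^m) = V_m(a, c)`. -/
theorem LUC_trace_pow_of_charpoly (hV : Module.finrank R V = 2)
    (f : Module.End R V) (a c : R) (h : LinearMap.charpoly f = X ^ 2 - C a * X + C c) (m : ℕ) :
    LinearMap.trace R V (f ^ m) = LUC_V a c m := by
  rw [LUC_trace_pow hV, LUC_trace_of_charpoly hV f a c h, LUC_det_of_charpoly hV f a c h]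

end Rank2

end Fermat.Agent.S31
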