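import Mathlib
import Fermat.Prelude.Def_CuspForm_HeckeGaloisRepDatum
import Fermat.Agent.GalRep.Tower
import Fermat.Agent.GalRep.Geom
import Fermat.Agent.S31.Carayol
import Fermat.Agent.S31.Lucas

/-!
# Item 30 (S31), package (ASM) (helper11): a Hecke–Galois datum is unramified outside `S`

`S31_asm`: S31 from
* the Galois–Hecke tower `GR_Tower p N (parInt N) (GR_hT N)` (track 4),
* `S31_FS` (faithful + saturated action of the anemic Hecke algebra on `parInt N`),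
* `S31_FDEStmt` (elementwise Frobenius density in `G_ℚ`),
* `S31_CycK` (the cyclotomic character modulo `p^K`),
* Carayol's lemma `CY_unramified` and the Lucas sequences `LUC_*`.

Idea: the operator-valued universal trace `t_K(g) = r_K(g) + ε_K(g) r_K(g⁻¹)` on `ℤ/p^K ⊗ parInt N`
is, by Eichler–Shimura and Frobenius density, the image of an element `d_g` of the Hecke algebra
with `tr ρ(g) ≡ π(d_g)` modulo `𝔪_T^k`; `t_K` is invariant under inertia at `q ∉ S`.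
-/

set_option autoImplicit false
set_option linter.unusedSectionVars false
set_option linter.unusedVariables false
set_option linter.style.haveILetI false

open scoped TensorProduct
open Polynomial

namespace Fermat.Agent.S31

open Fermat.Agent.GalRep Fermat.Agent.S16 CuspForm

/-- **(FS)** the faithful, `p`-saturated action of the Hecke algebra away from `S` on
`parInt N`. -/
structure S31_FS (N : ℕ) [NeZero N] (S : Set ℕ) (p : ℕ) where
  /-- the action -/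
  act : heckeAlgebra N 2 S →+* Module.End ℤ ↥(parInt N)
  act_T : ∀ {ℓ : ℕ} (hℓ : ℓ.Prime) (hℓN : ¬ ℓ ∣ N) (hℓS : ℓ ∉ S),
    act (heckeAlgebra.T hℓ hℓN hℓS) = GR_hT N ℓ
  /-- the saturation constant -/
  c : ℕ
  sat : ∀ (K : ℕ) (t : heckeAlgebra N 2 S), (act t).baseChange (ZMod (p ^ K)) = 0 →
    ∃ t' : heckeAlgebra N 2 S, t = (p : heckeAlgebra N 2 S) ^ (K - c) * t'

/-- **(FDE)** elementwise Frobenius density in `G_ℚ`. -/
def S31_FDEStmt : Prop :=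
  ∀ (g : GQ) (L : IntermediateField ℚ (AlgebraicClosure ℚ)), FiniteDimensional ℚ L →
    ∀ T₀ : Finset ℕ, ∃ (ℓ : ℕ) (σ : GQ) (m : ℕ), ℓ.Prime ∧ ℓ ∉ T₀ ∧ GR_IsFrob ℓ σ ∧
      ∀ x ∈ L, g x = (σ ^ m) x

/-- **(CYCK)** the cyclotomic character modulo `p^K`. -/
structure S31_CycK (p K : ℕ) where
  /-- the character -/
  ε : GQ →* (ZMod (p ^ K))ˣ
  fin : GaloisFactorsThroughFiniteLevel ε
  frob : ∀ ℓ : ℕ, ℓ.Prime → ℓ ≠ p → ∀ σ : GQ, GR_IsFrob ℓ σ →
    ((ε σ : (ZMod (p ^ K))ˣ) : ZMod (p ^ K)) = (ℓ : ZMod (p ^ K))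
  unram : ∀ q : ℕ, q.Prime → q ≠ p → ∀ P : ValuationSubring (AlgebraicClosure ℚ),
    P.LiesOverPrime q → ∀ σ ∈ P.inertiaSubgroupIn ℚ, ε σ = 1

section trace

variable {T V : Type*} [CommRing T] [AddCommGroup V] [Module T V] [Module.Free T V]
  [Module.Finite T V]

/-- an endomorphism with image in `I • V` has trace in `I`. -/
theorem S31_trace_mem (I : Ideal T) (Z : Module.End T V)
    (hZ : ∀ v, Z v ∈ I • (⊤ : Submodule T V)) : LinearMap.trace T V Z ∈ I := by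
  classical
  let b := Module.Free.chooseBasis T V
  rw [LinearMap.trace_eq_matrix_trace T b Z, Matrix.trace]
  refine Ideal.sum_mem _ fun i _ => ?_
  rw [Matrix.diag_apply, LinearMap.toMatrix_apply]
  have h : ∀ x ∈ I • (⊤ : Submodule T V), b.repr x i ∈ I := by
    intro x hx
    refine Submodule.smul_induction_on hx ?_ ?_
    · intro a ha w _
      rw [map_smul, Finsupp.smul_apply, smul_eq_mul]
      exact I.mul_mem_right _ ha
    · intro x y hx hy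
      rw [map_add, Finsupp.add_apply]
      exact I.add_mem hx hy
  exact h _ (hZ _)

/-- if `X ≡ 1` modulo `I` then `tr (Y X) ≡ tr Y` modulo `I`. -/
theorem S31_trace_mul_sub_mem (I : Ideal T) (Y X : Module.End T V)
    (hX : ∀ v, X v - v ∈ I • (⊤ : Submodule T V)) :
    LinearMap.trace T V (Y * X) - LinearMap.trace T V Y ∈ I := by
  have h1 : LinearMap.trace T V (Y * X) - LinearMap.trace T V Y
      = LinearMap.trace T V (Y * (X - 1)) := by
    rw [mul_sub, mul_one, map_sub]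
  rw [h1]
  apply S31_trace_mem
  intro v
  have h2 : (Y * (X - 1)) v = Y (X v - v) := by
    simp [Module.End.mul_apply, LinearMap.sub_apply]
  rw [h2]
  have h3 : ∀ x ∈ I • (⊤ : Submodule T V), Y x ∈ I • (⊤ : Submodule T V) := by
    intro x hx
    refine Submodule.smul_induction_on hx ?_ ?_
    · intro a ha w _
      rw [map_smul]
      exact Submodule.smul_mem_smul ha Submodule.mem_top
    · intro x y hx hy
      rw [map_add]
      exact Submodule.add_mem _ hx hy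
  exact h3 _ (hX v)

end trace

section tower

variable {p N : ℕ} {L : Type} [AddCommGroup L] {Th : ℕ → Module.End ℤ L}

/-- the operator-valued universal trace on `ℤ/p^K ⊗ L`. -/
noncomputable def S31_tK (tw : GR_Tower p N L Th) {K : ℕ} (cyc : S31_CycK p K) (g : GQ) :
    Module.End (ZMod (p ^ K)) (ZMod (p ^ K) ⊗[ℤ] L) :=
  tw.r K g + ((cyc.ε g : (ZMod (p ^ K))ˣ) : ZMod (p ^ K)) • tw.r K g⁻¹

theorem S31_r_inv_of_eq_one (tw : GR_Tower p N L Th) (K : ℕ) {u : GQ} (hu : tw.r K u = 1) :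
    tw.r K u⁻¹ = 1 := by
  have h : tw.r K u⁻¹ * tw.r K u = 1 := by
    rw [← map_mul, inv_mul_cancel, map_one]
  rwa [hu, mul_one] at h

/-- `t_K` does not see elements on which `r_K` and `ε_K` are trivial. -/
theorem S31_tK_mul_of_trivial (tw : GR_Tower p N L Th) {K : ℕ} (cyc : S31_CycK p K) (g u : GQ)
    (hu : tw.r K u = 1) (hε : cyc.ε u = 1) : S31_tK tw cyc (g * u) = S31_tK tw cyc g := by
  unfold S31_tK
  rw [map_mul, hu, mul_one, map_mul, hε, mul_one, mul_inv_rev, map_mul,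
    S31_r_inv_of_eq_one tw K hu, one_mul]

/-- `t_K` at a power of a Frobenius element is a Lucas polynomial in the Hecke operator. -/
theorem S31_tK_frob_pow (tw : GR_Tower p N L Th) {K : ℕ} (cyc : S31_CycK p K) {ℓ : ℕ}
    (hℓ : ℓ.Prime) (hℓN : ¬ ℓ ∣ N) (hℓp : ℓ ≠ p) {h : GQ} (hh : GR_IsFrob ℓ h) (m : ℕ) :
    S31_tK tw cyc (h ^ m)
      = LUC_V ((Th ℓ).baseChange (ZMod (p ^ K)))
          ((ℓ : ZMod (p ^ K)) • (1 : Module.End (ZMod (p ^ K)) (ZMod (p ^ K) ⊗[ℤ] L))) m := by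
  have hFG : tw.r K h * tw.r K h⁻¹ = 1 := by
    rw [← map_mul, mul_inv_cancel, map_one]
  have hq : tw.r K h ^ 2 - (Th ℓ).baseChange (ZMod (p ^ K)) * tw.r K h
      + (ℓ : ZMod (p ^ K)) • (1 : Module.End (ZMod (p ^ K)) (ZMod (p ^ K) ⊗[ℤ] L)) = 0 := by
    rw [pow_two]
    exact tw.es K ℓ hℓ hℓN hℓp h hh
  have hT : Commute ((Th ℓ).baseChange (ZMod (p ^ K))) (tw.r K h) := (tw.hecke K h ℓ).symm
  rw [← LUC_pow_add_pow_of_quadratic hT hq m, LUC_sub_eq_mul_inv hq (tw.r K h⁻¹) hFG]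
  unfold S31_tK
  rw [map_pow, map_pow, Units.val_pow_eq_pow_val, cyc.frob ℓ hℓ hℓp h hh, ← inv_pow, map_pow,
    smul_mul_assoc, one_mul, _root_.smul_pow]

end tower

section datum

variable {p : ℕ} {N : ℕ} [NeZero N] {S : Finset ℕ}
  {𝒪 : Type} [CommRing 𝒪] [IsDomain 𝒪] [IsDiscreteValuationRing 𝒪]
  [IsAdicComplete (IsLocalRing.maximalIdeal 𝒪) 𝒪]
  {θ : CuspForm.heckeAlgebra N 2 (↑S : Set ℕ) →+* IsLocalRing.ResidueField 𝒪}
  {T : Type} [CommRing T] [IsLocalRing T] [IsNoetherianRing T]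
  [IsAdicComplete (IsLocalRing.maximalIdeal T) T] [Algebra 𝒪 T] [IsLocalHom (algebraMap 𝒪 T)]
  [Module.Finite 𝒪 T] [Module.Free 𝒪 T]

/-- the action of the Hecke algebra on `ℤ/p^K ⊗ parInt N`. -/
noncomputable def S31_iota (fs : S31_FS N (↑S : Set ℕ) p) (K : ℕ) :
    heckeAlgebra N 2 (↑S : Set ℕ) →+*
      Module.End (ZMod (p ^ K)) (ZMod (p ^ K) ⊗[ℤ] ↥(parInt N)) where
  toFun t := (fs.act t).baseChange (ZMod (p ^ K))
  map_one' := by rw [map_one, LinearMap.baseChange_one]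
  map_mul' a b := by rw [map_mul, LinearMap.baseChange_mul]
  map_zero' := by rw [map_zero, LinearMap.baseChange_zero]
  map_add' a b := by rw [map_add, LinearMap.baseChange_add]

theorem S31_iota_apply (fs : S31_FS N (↑S : Set ℕ) p) (K : ℕ)
    (t : heckeAlgebra N 2 (↑S : Set ℕ)) :
    S31_iota fs K t = (fs.act t).baseChange (ZMod (p ^ K)) := rfl

/-- **the universal trace is a Hecke operator**: for every `g` there is an element `d` of the
Hecke algebra with `tr ρ(g) ≡ π(d)` modulo `𝔪_T^k` and `t_K(g) = d` on `ℤ/p^K ⊗ parInt N`. -/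
theorem S31_exists_hecke (hpS : p ∈ S) (hNS : ∀ q : ℕ, q.Prime → q ∣ N → q ∈ S)
    (H : CuspForm.HeckeGaloisRepDatum N (↑S : Set ℕ) 𝒪 θ T)
    (tw : GR_Tower p N ↥(parInt N) (GR_hT N)) (fs : S31_FS N (↑S : Set ℕ) p)
    (hfde : S31_FDEStmt) {K : ℕ} (cyc : S31_CycK p K) (k : ℕ) (g : GQ) :
    ∃ d : heckeAlgebra N 2 (↑S : Set ℕ),
      H.ρ.trace g - H.π d ∈ IsLocalRing.maximalIdeal T ^ k ∧
      S31_iota fs K d = S31_tK tw cyc g := by
  obtain ⟨L₁, hL₁, h₁⟩ := tw.fin K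
  obtain ⟨L₂, hL₂, h₂⟩ := cyc.fin
  obtain ⟨L₃, hL₃, h₃⟩ := H.ρ.isAdicContinuous k
  haveI := hL₁
  haveI := hL₂
  haveI := hL₃
  haveI : FiniteDimensional ℚ ↥(L₁ ⊔ L₂) := IntermediateField.finiteDimensional_sup L₁ L₂
  haveI : FiniteDimensional ℚ ↥(L₁ ⊔ L₂ ⊔ L₃) :=
    IntermediateField.finiteDimensional_sup (L₁ ⊔ L₂) L₃
  obtain ⟨ℓ, σ, m, hℓ, hℓS, hσ, hg⟩ := hfde g (L₁ ⊔ L₂ ⊔ L₃) inferInstance S
  have hℓN : ¬ ℓ ∣ N := fun h => hℓS (hNS ℓ hℓ h)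
  have hℓp : ℓ ≠ p := fun h => hℓS (h ▸ hpS)
  have hℓS' : ℓ ∉ (↑S : Set ℕ) := by simpa using hℓS
  have hgu : g = σ ^ m * ((σ ^ m)⁻¹ * g) := by rw [mul_inv_cancel_left]
  have hfix : ∀ x ∈ L₁ ⊔ L₂ ⊔ L₃, ((σ ^ m)⁻¹ * g) x = x := by
    intro x hx
    rw [AlgEquiv.mul_apply, hg x hx, ← AlgEquiv.mul_apply, inv_mul_cancel, AlgEquiv.one_apply]
  have hu₁ : tw.r K ((σ ^ m)⁻¹ * g) = 1 :=
    h₁ _ fun x hx => hfix x ((le_sup_left.trans le_sup_left : L₁ ≤ L₁ ⊔ L₂ ⊔ L₃) hx)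
  have hu₂ : cyc.ε ((σ ^ m)⁻¹ * g) = 1 :=
    h₂ _ fun x hx => hfix x ((le_sup_right.trans le_sup_left : L₂ ≤ L₁ ⊔ L₂ ⊔ L₃) hx)
  have hu₃ := h₃ ((σ ^ m)⁻¹ * g)
    fun x hx => hfix x ((le_sup_right : L₃ ≤ L₁ ⊔ L₂ ⊔ L₃) hx)
  obtain ⟨A, hA, hfrob⟩ := hσ
  refine ⟨LUC_V (heckeAlgebra.T hℓ hℓN hℓS') (ℓ : heckeAlgebra N 2 (↑S : Set ℕ)) m, ?_, ?_⟩
  · have h4 : H.ρ.trace (σ ^ m)
        = H.π (LUC_V (heckeAlgebra.T hℓ hℓN hℓS') (ℓ : heckeAlgebra N 2 (↑S : Set ℕ)) m) := by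
      unfold GaloisRepAdic.trace
      rw [map_pow, LUC_trace_pow_of_charpoly H.ρ.finrank_eq (H.ρ.ρ σ) _ _
        (H.charpoly_frob ℓ hℓ hℓN hℓS' A hA σ hfrob) m, LUC_V_map, map_natCast]
    rw [← h4]
    nth_rewrite 1 [hgu]
    unfold GaloisRepAdic.trace
    rw [map_mul]
    exact S31_trace_mul_sub_mem _ _ _ hu₃
  · rw [hgu, S31_tK_mul_of_trivial tw cyc _ _ hu₁ hu₂,
      S31_tK_frob_pow tw cyc hℓ hℓN hℓp ⟨A, hA, hfrob⟩ m, LUC_V_map, S31_iota_apply,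
      fs.act_T, map_natCast]
    congr 1
    rw [Nat.cast_smul_eq_nsmul, nsmul_one]

/-- **(ASM)**: S31 from the tower, (FS), (FDE), (CYCK), Carayol and Lucas. -/
theorem S31_asm (hpS : p ∈ S) (hp𝒪 : (p : 𝒪) ∈ IsLocalRing.maximalIdeal 𝒪)
    (hNS : ∀ q : ℕ, q.Prime → q ∣ N → q ∈ S)
    (H : CuspForm.HeckeGaloisRepDatum N (↑S : Set ℕ) 𝒪 θ T)
    (tw : GR_Tower p N ↥(parInt N) (GR_hT N)) (fs : S31_FS N (↑S : Set ℕ) p)
    (hfde : S31_FDEStmt) (cyc : ∀ K : ℕ, S31_CycK p K)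
    (q : ℕ) (hq : q.Prime) (hqS : q ∉ S) : H.ρ.IsUnramifiedAt q := by
  have hqN : ¬ q ∣ N := fun h => hqS (hNS q hq h)
  have hqp : q ≠ p := fun h => hqS (h ▸ hpS)
  have hpT : (p : T) ∈ IsLocalRing.maximalIdeal T := by
    have h1 : algebraMap 𝒪 T (p : 𝒪) ∈ IsLocalRing.maximalIdeal T := by
      rw [IsLocalRing.mem_maximalIdeal, mem_nonunits_iff]
      intro hu
      exact (IsLocalRing.mem_maximalIdeal _).mp hp𝒪 ((isUnit_map_iff (algebraMap 𝒪 T) _).mp hu)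
    simpa using h1
  apply CY_unramified H.ρ H.residual_absIrr q
  intro P hP τ hτ g
  have key : ∀ k : ℕ, H.ρ.trace (g * τ) - H.ρ.trace g ∈ IsLocalRing.maximalIdeal T ^ k := by
    intro k
    obtain ⟨d₁, hd₁, hι₁⟩ := S31_exists_hecke hpS hNS H tw fs hfde (cyc (k + fs.c)) k (g * τ)
    obtain ⟨d₂, hd₂, hι₂⟩ := S31_exists_hecke hpS hNS H tw fs hfde (cyc (k + fs.c)) k g
    have hτ₁ : tw.r (k + fs.c) τ = 1 := tw.unram _ q hq hqN hqp P hP τ hτ
    have hτ₂ : (cyc (k + fs.c)).ε τ = 1 := (cyc _).unram q hq hqp P hP τ hτ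
    have h5 : (fs.act (d₁ - d₂)).baseChange (ZMod (p ^ (k + fs.c))) = 0 := by
      rw [← S31_iota_apply, map_sub, hι₁, hι₂, S31_tK_mul_of_trivial tw _ g τ hτ₁ hτ₂, sub_self]
    obtain ⟨t', ht'⟩ := fs.sat (k + fs.c) (d₁ - d₂) h5
    rw [Nat.add_sub_cancel] at ht'
    have h6 : H.π (d₁ - d₂) ∈ IsLocalRing.maximalIdeal T ^ k := by
      rw [ht', map_mul, map_pow, map_natCast]
      exact Ideal.mul_mem_right _ _ (Ideal.pow_mem_pow hpT k)
    have h7 : H.ρ.trace (g * τ) - H.ρ.trace g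
        = (H.ρ.trace (g * τ) - H.π d₁) - (H.ρ.trace g - H.π d₂) + H.π (d₁ - d₂) := by
      rw [map_sub]
      ring
    rw [h7]
    exact Ideal.add_mem _ (Ideal.sub_mem _ hd₁ hd₂) h6
  have hbot : (⨅ k : ℕ, IsLocalRing.maximalIdeal T ^ k) = ⊥ :=
    Ideal.iInf_pow_eq_bot_of_isLocalRing _ (IsLocalRing.maximalIdeal.isMaximal T).ne_top
  have hmem : H.ρ.trace (g * τ) - H.ρ.trace g ∈ (⨅ k : ℕ, IsLocalRing.maximalIdeal T ^ k) := by
    rw [Ideal.mem_iInf]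
    exact key
  rw [hbot, Ideal.mem_bot, sub_eq_zero] at hmem
  exact hmem

end datum

end Fermat.Agent.S31
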