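import Mathlib
import Fermat.Agent.GalRep.Cyc
import Fermat.Prelude.Def_GaloisRep_Residual

/-!
# Item 30 (S31), package (CYCK): the cyclotomic character modulo `p ^ K`

`CYK_eps p K : G_ℚ →* (ZMod (p ^ K))ˣ`, the reduction of the `p`-adic cyclotomic character of
`GalRep/Cyc.lean`, with

* `CYK_fin`   : it factors through a finite level;
* `CYK_frob`  : `ε_K (Frob_ℓ) = ℓ` for `ℓ ≠ p`;
* `CYK_unram` : `ε_K = 1` on inertia at `q ≠ p`;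
* `CYK_compat`: compatibility in `K`;
* `CYK_exists`: the existence statement in the shape of `S31_CycK` (NOTES/items/30_route.md).
-/

set_option autoImplicit false
set_option linter.unusedSectionVars false

namespace Fermat.Agent.S31

open IsLocalRing Fermat.Agent.GalRep

variable (p : ℕ) [Fact p.Prime]

lemma CYK_p_mem : (p : ℤ_[p]) ∈ maximalIdeal ℤ_[p] := by
  rw [PadicInt.maximalIdeal_eq_span_p]
  exact Ideal.mem_span_singleton_self _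

/-- the `p`-adic cyclotomic character (a fixed inhabitant of `GR_Cyc p ℤ_[p]`). -/
noncomputable def CYK_cyc : GR_Cyc p ℤ_[p] := GR_cyc_mk p ℤ_[p] (CYK_p_mem p)

/-- the cyclotomic character modulo `p ^ K`. -/
noncomputable def CYK_eps (K : ℕ) : GQ →* (ZMod (p ^ K))ˣ :=
  (Units.map ((PadicInt.toZModPow (p := p) K : ℤ_[p] →+* ZMod (p ^ K)) :
    ℤ_[p] →* ZMod (p ^ K))).comp (CYK_cyc p).ε

lemma CYK_eps_coe (K : ℕ) (σ : GQ) :
    ((CYK_eps p K σ : (ZMod (p ^ K))ˣ) : ZMod (p ^ K)) =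
      PadicInt.toZModPow (p := p) K (((CYK_cyc p).ε σ : ℤ_[p]ˣ) : ℤ_[p]) := rfl

theorem CYK_frob (K : ℕ) (ℓ : ℕ) (hℓ : ℓ.Prime) (hℓp : ℓ ≠ p) (σ : GQ) (hσ : GR_IsFrob ℓ σ) :
    ((CYK_eps p K σ : (ZMod (p ^ K))ˣ) : ZMod (p ^ K)) = (ℓ : ZMod (p ^ K)) := by
  rw [CYK_eps_coe, (CYK_cyc p).frob ℓ hℓ hℓp σ hσ, map_natCast]

theorem CYK_unram (K : ℕ) (q : ℕ) (hq : q.Prime) (hqp : q ≠ p)
    (P : ValuationSubring (AlgebraicClosure ℚ)) (hP : P.LiesOverPrime q)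
    (σ : GQ) (hσ : σ ∈ P.inertiaSubgroupIn ℚ) : CYK_eps p K σ = 1 := by
  show Units.map _ ((CYK_cyc p).ε σ) = 1
  rw [(CYK_cyc p).unram q hq hqp P hP σ hσ, map_one]

theorem CYK_fin (K : ℕ) : GaloisFactorsThroughFiniteLevel (CYK_eps p K) := by
  obtain ⟨L, hL, h⟩ := (CYK_cyc p).cont K
  refine ⟨L, hL, fun σ hσ => ?_⟩
  have h1 := h σ hσ
  rw [PadicInt.maximalIdeal_eq_span_p, Ideal.span_singleton_pow, ← PadicInt.ker_toZModPow,
    RingHom.mem_ker, map_sub, map_one, sub_eq_zero] at h1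
  apply Units.ext
  rw [CYK_eps_coe, h1]
  rfl

theorem CYK_compat (K : ℕ) (σ : GQ) :
    ZMod.castHom (pow_dvd_pow p (Nat.le_succ K)) (ZMod (p ^ K))
      ((CYK_eps p (K + 1) σ : (ZMod (p ^ (K + 1)))ˣ) : ZMod (p ^ (K + 1))) =
      ((CYK_eps p K σ : (ZMod (p ^ K))ˣ) : ZMod (p ^ K)) := by
  rw [CYK_eps_coe, CYK_eps_coe, ← RingHom.comp_apply,
    PadicInt.zmod_cast_comp_toZModPow _ _ (Nat.le_succ K)]

/-- **(CYCK)** in the shape of `S31_CycK p K`. -/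
theorem CYK_exists (K : ℕ) :
    ∃ ε : GQ →* (ZMod (p ^ K))ˣ, GaloisFactorsThroughFiniteLevel ε ∧
      (∀ ℓ : ℕ, ℓ.Prime → ℓ ≠ p → ∀ σ : GQ, GR_IsFrob ℓ σ →
        ((ε σ : (ZMod (p ^ K))ˣ) : ZMod (p ^ K)) = (ℓ : ZMod (p ^ K))) ∧
      (∀ q : ℕ, q.Prime → q ≠ p → ∀ P : ValuationSubring (AlgebraicClosure ℚ),
        P.LiesOverPrime q → ∀ σ ∈ P.inertiaSubgroupIn ℚ, ε σ = 1) :=
  ⟨CYK_eps p K, CYK_fin p K, CYK_frob p K, CYK_unram p K⟩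

end Fermat.Agent.S31
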