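import Mathlib
import Fermat.Agent.GalRep.Geom

/-!
# Item 30 (S31), package FS (helper1): faithfulness + saturation of the anemic Hecke algebra
on `L = parInt N = Hom_par(Γ₀(N), ℤ)`

* `FS_artinRees` : an injective map `φ : A → B` into a finitely generated `ℤ`-module:
  `∃ c, ∀ K a, φ a ∈ n^K B → a ∈ n^(K-c) A` (Artin–Rees).
* `FS_act N S : heckeAlgebra N 2 S →+* End_ℤ(parInt N)`, the integral cohomological action of the
  Hecke algebra of cusp forms, with `FS_act_T`, `FS_act_U` (generators ↦ `GR_hT N ℓ`) and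
  `FS_act_injective` (faithful).
* `FS_main` : `∃ c, ∀ K d, (FS_act d) ⊗ ℤ/p^K = 0 → d ∈ p^(K-c) · heckeAlgebra N 2 S`.
-/

set_option autoImplicit false

open CongruenceSubgroup Matrix.SpecialLinearGroup Module
open ModularCurve ModularCurve.Period
open scoped MatrixGroups TensorProduct

namespace Fermat.Agent.S31

open Fermat.Agent.S16 Fermat.Agent.GalRep

section generic

/-- **Artin–Rees for an injective map into a finitely generated `ℤ`-module**: divisibility of
`φ a` by `n^K` in `B` forces divisibility of `a` by `n^(K-c)` in `A`. -/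
theorem FS_artinRees {A B : Type*} [AddCommGroup A] [AddCommGroup B] [Module.Finite ℤ B]
    (φ : A →ₗ[ℤ] B) (hφ : Function.Injective φ) (n : ℤ) :
    ∃ c : ℕ, ∀ (K : ℕ) (a : A), (∃ b : B, φ a = n ^ K • b) → ∃ a' : A, a = n ^ (K - c) • a' := by
  obtain ⟨c, hc⟩ := Ideal.exists_pow_inf_eq_pow_smul (Ideal.span {n}) (LinearMap.range φ)
  refine ⟨c, fun K a ⟨b, hb⟩ => ?_⟩
  rcases Nat.lt_or_ge K c with hK | hK
  · refine ⟨a, ?_⟩
    rw [Nat.sub_eq_zero_of_le hK.le, pow_zero, one_smul]
  · have h1 : φ a ∈ Ideal.span {n} ^ K • (⊤ : Submodule ℤ B) ⊓ LinearMap.range φ := by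
      refine ⟨?_, ⟨a, rfl⟩⟩
      rw [Ideal.span_singleton_pow, Submodule.ideal_span_singleton_smul, hb]
      exact Submodule.smul_mem_pointwise_smul _ _ _ Submodule.mem_top
    rw [hc K hK, Ideal.span_singleton_pow, Submodule.ideal_span_singleton_smul] at h1
    obtain ⟨y, hy, hya⟩ := (Submodule.mem_smul_pointwise_iff_exists _ _ _).mp h1
    obtain ⟨a', rfl⟩ := hy.2
    refine ⟨a', hφ ?_⟩
    rw [map_smul, hya]

/-- an endomorphism of a free `ℤ`-module of finite rank which vanishes mod `n` is divisible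
by `n`. -/
theorem FS_exists_div {L : Type*} [AddCommGroup L] [Module.Free ℤ L] [Module.Finite ℤ L]
    (n : ℕ) (e : Module.End ℤ L) (he : e.baseChange (ZMod n) = 0) :
    ∃ e' : Module.End ℤ L, e = (n : ℤ) • e' := by
  classical
  set b := Module.Free.chooseBasis ℤ L with hb
  have hdvd : ∀ y : L, (1 : ZMod n) ⊗ₜ[ℤ] y = (0 : ZMod n ⊗[ℤ] L) → ∀ i, (n : ℤ) ∣ b.repr y i := by
    intro y hy i
    have h1 := congrArg (fun z => (Algebra.TensorProduct.basis (ZMod n) b).repr z i) hy
    simp only [Algebra.TensorProduct.basis_repr_tmul, map_zero, Finsupp.zero_apply] at h1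
    rw [one_smul] at h1
    exact (ZMod.intCast_zmod_eq_zero_iff_dvd _ _).mp (by simpa using h1)
  have hex : ∀ y : L, e y ∈ LinearMap.range ((n : ℤ) • (LinearMap.id : L →ₗ[ℤ] L)) := by
    intro y
    have h0 : (1 : ZMod n) ⊗ₜ[ℤ] e y = (0 : ZMod n ⊗[ℤ] L) := by
      have := congrArg (fun f : Module.End (ZMod n) (ZMod n ⊗[ℤ] L) => f ((1 : ZMod n) ⊗ₜ[ℤ] y)) he
      simpa using this
    have h2 := hdvd (e y) h0
    choose k hk using h2
    refine ⟨∑ i, k i • b i, ?_⟩
    rw [LinearMap.smul_apply, LinearMap.id_apply, Finset.smul_sum]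
    conv_rhs => rw [← b.sum_repr (e y)]
    refine Finset.sum_congr rfl fun i _ => ?_
    rw [hk i, smul_smul]
  choose g hg using hex
  refine ⟨b.constr ℤ (fun i => g (b i)), ?_⟩
  refine b.ext fun i => ?_
  rw [LinearMap.smul_apply, Basis.constr_basis, ← hg (b i)]
  rfl

/-- **abstract saturation**: an injective additive map `φ : A → End_ℤ(L)`, `L` free of finite
rank: there is `c` such that `φ a ≡ 0 mod p^K` forces `a ∈ p^(K-c) A`. -/
theorem FS_sat {A L : Type*} [AddCommGroup A] [AddCommGroup L] [Module.Free ℤ L]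
    [Module.Finite ℤ L] (φ : A →+ Module.End ℤ L) (hφ : Function.Injective φ) (p : ℕ) :
    ∃ c : ℕ, ∀ (K : ℕ) (a : A), (φ a).baseChange (ZMod (p ^ K)) = 0 →
      ∃ a' : A, a = ((p : ℤ) ^ (K - c)) • a' := by
  obtain ⟨c, hc⟩ := FS_artinRees (A := A) (B := Module.End ℤ L) φ.toIntLinearMap hφ (p : ℤ)
  refine ⟨c, fun K a ha => ?_⟩
  obtain ⟨e', he'⟩ := FS_exists_div (p ^ K) (φ a) ha
  refine hc K a ⟨e', ?_⟩
  rw [← Nat.cast_pow]
  exact he'

end generic

section hecke

variable (N : ℕ) [NeZero N] (S : Set ℕ)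

/-- the complex action of the Hecke algebra (away from `S`) on `Hom_par(Γ₀(N), ℂ)`. -/
noncomputable def FS_actC :
    CuspForm.heckeAlgebra N 2 S →+* Module.End ℂ ↥(parabolicHoms ℂ (Gamma0 N) ℂ) :=
  (S16_endHom N).comp (CuspForm.heckeAlgebra N 2 S).val.toRingHom

theorem FS_actC_apply (t : CuspForm.heckeAlgebra N 2 S) :
    FS_actC N S t = S16_endHom N (t : Module.End ℂ (CuspForm (Gamma0 N) 2)) := rfl

theorem FS_endHom_injective : Function.Injective (S16_endHom N) := by
  intro T T' h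
  refine LinearMap.ext fun f => ?_
  have h1 := congrArg (fun E : Module.End ℂ ↥(parabolicHoms ℂ (Gamma0 N) ℂ) =>
    E (S16_esEquiv N (f, 0))) h
  simp only [S16_endHom_apply] at h1
  have h2 := (S16_esEquiv N).injective h1
  exact congrArg Prod.fst h2

theorem FS_actC_injective : Function.Injective (FS_actC N S) := by
  intro t t' h
  exact Subtype.ext (FS_endHom_injective N h)

/-- the generators preserve the integer classes. -/
theorem FS_gen_mem_range (T : Module.End ℂ (CuspForm (Gamma0 N) 2))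
    (hT : T ∈ CuspForm.heckeGenerators N 2 S) (χ : ↥(parInt N)) :
    S16_endHom N T (GRD_cast N χ) ∈ LinearMap.range (GRD_cast N) := by
  rcases hT with ⟨ℓ, hℓ, hℓN, -, rfl⟩ | ⟨q, hqN, hq, -, rfl⟩
  · have h := GRD_heckeGen_mem_range N ⟨ℓ, hℓ⟩ χ
    rwa [S16_heckeCohHom_apply,
      CuspForm.heckeEvalForms_heckeGen_of_not_dvd (N := N) (k := 2) (ℓ := ⟨ℓ, hℓ⟩) hℓN] at h
  · have h := GRD_heckeGen_mem_range N ⟨q, hq⟩ χ
    rwa [S16_heckeCohHom_apply,
      CuspForm.heckeEvalForms_heckeGen_of_dvd (N := N) (k := 2) (q := ⟨q, hq⟩) hqN] at h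

/-- every element of the Hecke algebra preserves the integer classes. -/
theorem FS_actC_mem_range (t : CuspForm.heckeAlgebra N 2 S) (χ : ↥(parInt N)) :
    FS_actC N S t (GRD_cast N χ) ∈ LinearMap.range (GRD_cast N) := by
  obtain ⟨t, ht⟩ := t
  rw [FS_actC_apply]
  show S16_endHom N t (GRD_cast N χ) ∈ LinearMap.range (GRD_cast N)
  induction ht using Algebra.adjoin_induction generalizing χ with
  | mem T hT => exact FS_gen_mem_range N S T hT χ
  | algebraMap a =>
    have h : S16_endHom N (algebraMap ℤ (Module.End ℂ (CuspForm (Gamma0 N) 2)) a)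
        = (a : Module.End ℂ _) := by
      rw [eq_intCast, map_intCast]
    rw [h]
    refine ⟨a • χ, ?_⟩
    rw [map_zsmul]
    rw [Module.End.intCast_apply]
  | add T T' _ _ hT hT' =>
    rw [map_add, LinearMap.add_apply]
    exact Submodule.add_mem _ (hT χ) (hT' χ)
  | mul T T' _ _ hT hT' =>
    rw [map_mul, Module.End.mul_apply]
    obtain ⟨ψ, hψ⟩ := hT' χ
    rw [← hψ]
    exact hT ψ

/-- the action of `t` on integer classes, as a function. -/
noncomputable def FS_actFun (t : CuspForm.heckeAlgebra N 2 S) (χ : ↥(parInt N)) : ↥(parInt N) :=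
  (GRD_castEquiv N).symm ⟨FS_actC N S t (GRD_cast N χ), FS_actC_mem_range N S t χ⟩

theorem FS_cast_actFun (t : CuspForm.heckeAlgebra N 2 S) (χ : ↥(parInt N)) :
    GRD_cast N (FS_actFun N S t χ) = FS_actC N S t (GRD_cast N χ) := by
  have := (GRD_castEquiv N).apply_symm_apply
    ⟨FS_actC N S t (GRD_cast N χ), FS_actC_mem_range N S t χ⟩
  exact congrArg Subtype.val this

/-- **the integral cohomological action** of the Hecke algebra away from `S` on
`L = Hom_par(Γ₀(N), ℤ)`. -/
noncomputable def FS_act : CuspForm.heckeAlgebra N 2 S →+* Module.End ℤ ↥(parInt N) where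
  toFun t :=
    { toFun := FS_actFun N S t
      map_add' := fun χ ψ => by
        apply GRD_cast_injective N
        rw [map_add, FS_cast_actFun, FS_cast_actFun, FS_cast_actFun, map_add, map_add]
      map_smul' := fun c χ => by
        apply GRD_cast_injective N
        rw [RingHom.id_apply, map_zsmul, FS_cast_actFun, FS_cast_actFun, map_zsmul,
          map_zsmul] }
  map_one' := by
    refine LinearMap.ext fun χ => ?_
    apply GRD_cast_injective N
    show GRD_cast N (FS_actFun N S 1 χ) = _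
    rw [FS_cast_actFun, map_one]
    rfl
  map_mul' r s := by
    refine LinearMap.ext fun χ => ?_
    apply GRD_cast_injective N
    show GRD_cast N (FS_actFun N S (r * s) χ)
      = GRD_cast N (FS_actFun N S r (FS_actFun N S s χ))
    rw [FS_cast_actFun, FS_cast_actFun, FS_cast_actFun, map_mul]
    rfl
  map_zero' := by
    refine LinearMap.ext fun χ => ?_
    apply GRD_cast_injective N
    show GRD_cast N (FS_actFun N S 0 χ) = _
    rw [FS_cast_actFun, map_zero]
    simp
  map_add' r s := by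
    refine LinearMap.ext fun χ => ?_
    apply GRD_cast_injective N
    show GRD_cast N (FS_actFun N S (r + s) χ)
      = GRD_cast N (FS_actFun N S r χ + FS_actFun N S s χ)
    rw [map_add (GRD_cast N), FS_cast_actFun, FS_cast_actFun, FS_cast_actFun, map_add]
    rfl

theorem FS_cast_act (t : CuspForm.heckeAlgebra N 2 S) (χ : ↥(parInt N)) :
    GRD_cast N (FS_act N S t χ) = FS_actC N S t (GRD_cast N χ) :=
  FS_cast_actFun N S t χ

/-- the integer classes span the complex ones. -/
theorem FS_span_range_cast :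
    Submodule.span ℂ (Set.range (GRD_cast N)) = ⊤ := by
  rw [eq_top_iff]
  rintro ⟨φ, hφ⟩ -
  have h := parabolic_le_span_int N hφ
  -- transport the span along the subtype
  have h2 : ∀ ψ ∈ Submodule.span ℂ ((intToComplex (Gamma0 N)) ''
      {χ : Additive (Gamma0 N) →+ ℤ | IsParabolicHom (Gamma0 N) χ}),
      ∀ hψ : ψ ∈ parabolicHoms ℂ (Gamma0 N) ℂ,
      (⟨ψ, hψ⟩ : ↥(parabolicHoms ℂ (Gamma0 N) ℂ)) ∈ Submodule.span ℂ (Set.range (GRD_cast N)) := by
    intro ψ hψs
    induction hψs using Submodule.span_induction with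
    | mem x hx =>
      intro hψ
      obtain ⟨χ, hχ, rfl⟩ := hx
      exact Submodule.subset_span ⟨⟨χ, hχ⟩, rfl⟩
    | zero =>
      intro hψ
      exact Submodule.zero_mem _
    | add x y hx hy ihx ihy =>
      intro hψ
      have hx' : x ∈ parabolicHoms ℂ (Gamma0 N) ℂ :=
        Submodule.span_le.mpr (by
          rintro _ ⟨χ, hχ, rfl⟩
          exact (GRD_cast N ⟨χ, hχ⟩).2) hx
      have hy' : y ∈ parabolicHoms ℂ (Gamma0 N) ℂ :=
        Submodule.span_le.mpr (by
          rintro _ ⟨χ, hχ, rfl⟩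
          exact (GRD_cast N ⟨χ, hχ⟩).2) hy
      have := Submodule.add_mem _ (ihx hx') (ihy hy')
      exact this
    | smul c x hx ihx =>
      intro hψ
      have hx' : x ∈ parabolicHoms ℂ (Gamma0 N) ℂ :=
        Submodule.span_le.mpr (by
          rintro _ ⟨χ, hχ, rfl⟩
          exact (GRD_cast N ⟨χ, hχ⟩).2) hx
      have := Submodule.smul_mem _ c (ihx hx')
      exact this
  exact h2 φ h hφ

/-- **faithfulness**: the Hecke algebra acts faithfully on the integer classes. -/
theorem FS_act_injective : Function.Injective (FS_act N S) := by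
  rw [injective_iff_map_eq_zero]
  intro t ht
  apply FS_actC_injective N S
  rw [map_zero]
  apply LinearMap.ext_on (FS_span_range_cast N)
  rintro _ ⟨χ, rfl⟩
  rw [← FS_cast_act, ht]
  simp

/-- the generator `T_ℓ` acts as `GR_hT N ℓ`. -/
theorem FS_act_T {ℓ : ℕ} (hℓ : ℓ.Prime) (hℓN : ¬ ℓ ∣ N) (hℓS : ℓ ∉ S) :
    FS_act N S (CuspForm.heckeAlgebra.T hℓ hℓN hℓS) = GR_hT N ℓ := by
  refine LinearMap.ext fun χ => ?_
  apply GRD_cast_injective N
  rw [FS_cast_act, GR_hT, dif_pos hℓ, GRD_heckeL_coe, S16_heckeCohHom_apply,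
    CuspForm.heckeEvalForms_heckeGen_of_not_dvd (N := N) (k := 2) (ℓ := ⟨ℓ, hℓ⟩) hℓN]
  rfl

/-- the generator `U_q` acts as `GR_hT N q`. -/
theorem FS_act_U {q : ℕ} (hq : q.Prime) (hqN : q ∣ N) (hqS : q ∉ S) :
    FS_act N S (CuspForm.heckeAlgebra.U hq hqN hqS) = GR_hT N q := by
  refine LinearMap.ext fun χ => ?_
  apply GRD_cast_injective N
  rw [FS_cast_act, GR_hT, dif_pos hq, GRD_heckeL_coe, S16_heckeCohHom_apply,
    CuspForm.heckeEvalForms_heckeGen_of_dvd (N := N) (k := 2) (q := ⟨q, hq⟩) hqN]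
  rfl

/-- **FS (faithful + saturated)**: there is a constant `c` such that every element `d` of the
Hecke algebra which acts as `0` on `L / p^K L` is divisible by `p^(K-c)` in the Hecke algebra. -/
theorem FS_main (p : ℕ) :
    ∃ c : ℕ, ∀ (K : ℕ) (d : CuspForm.heckeAlgebra N 2 S),
      (FS_act N S d).baseChange (ZMod (p ^ K)) = 0 →
      ∃ d' : CuspForm.heckeAlgebra N 2 S, d = ((p : ℤ) ^ (K - c)) • d' := by
  have h1 := free_parInt N
  have h2 := finite_parInt N
  exact FS_sat (FS_act N S).toAddMonoidHom (FS_act_injective N S) p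

/-- `FS_main` in the multiplicative form used by the assembly (`S31_FS.sat`). -/
theorem FS_main_mul (p : ℕ) :
    ∃ c : ℕ, ∀ (K : ℕ) (t : CuspForm.heckeAlgebra N 2 S),
      (FS_act N S t).baseChange (ZMod (p ^ K)) = 0 →
      ∃ t' : CuspForm.heckeAlgebra N 2 S, t = (p : CuspForm.heckeAlgebra N 2 S) ^ (K - c) * t' := by
  obtain ⟨c, hc⟩ := FS_main N S p
  refine ⟨c, fun K t ht => ?_⟩
  obtain ⟨t', ht'⟩ := hc K t ht
  refine ⟨t', ?_⟩
  rw [ht', zsmul_eq_mul]
  push_cast
  rfl

end hecke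

end Fermat.Agent.S31
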