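import Mathlib
import Fermat.Agent.GalRep.DS
import Fermat.Agent.Lib.FrobDensity
import Fermat.Agent.Lib.FrobTransfer

/-!
# Item 30 (S31), package (FDE): the elementwise Frobenius density statement in `G_ℚ`

* `FDE_isFrob_conj` : a conjugate of a Frobenius element at `ℓ` is a Frobenius element at `ℓ`
  (for the conjugate valuation ring);
* `FDE_exists` : for `g ∈ G_ℚ`, a finite extension `L / ℚ` inside `ℚ̄` and a finite set `T` of
  primes there are a prime `ℓ ∉ T`, a Frobenius element `σ` at `ℓ` and `m : ℕ` such that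
  `g = σ ^ m` on `L`;
* `FDE_exists_mem` : the same for an open subgroup `U` : `g⁻¹ * σ ^ m ∈ U`.
-/

set_option autoImplicit false
set_option linter.unusedSectionVars false
set_option linter.unusedVariables false
set_option linter.style.haveILetI false

open scoped Pointwise NumberField
open IntermediateField

namespace Fermat.Agent.S31

open ValuationSubring Fermat.Agent.Lib Fermat.Agent.GalRep

local notation "ℚbar" => AlgebraicClosure ℚ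

/-- membership in the nonunits of a valuation subring, without valuations. -/
lemma FDE_mem_nonunits_iff {K : Type*} [Field K] (A : ValuationSubring K) (x : K) :
    x ∈ A.nonunits ↔ x = 0 ∨ x⁻¹ ∉ A := by
  rw [ValuationSubring.mem_nonunits_iff]
  by_cases hx : x = 0
  · simp [hx]
  · simp only [hx, false_or]
    rw [← ValuationSubring.valuation_le_one_iff, map_inv₀, not_le]
    have h0 : A.valuation x ≠ 0 := (Valuation.ne_zero_iff _).mpr hx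
    constructor
    · intro h
      exact (one_lt_inv₀ (zero_lt_iff.mpr h0)).mpr h
    · intro h
      exact (one_lt_inv₀ (zero_lt_iff.mpr h0)).mp h

/-- the conjugate valuation subring. -/
noncomputable def FDE_conj (c : GQ) (A : ValuationSubring ℚbar) : ValuationSubring ℚbar :=
  A.comap (c⁻¹ : GQ).toRingEquiv.toRingHom

lemma FDE_mem_conj (c : GQ) (A : ValuationSubring ℚbar) (x : ℚbar) :
    x ∈ FDE_conj c A ↔ (c⁻¹ : GQ) x ∈ A := Iff.rfl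

lemma FDE_mem_conj_nonunits (c : GQ) (A : ValuationSubring ℚbar) (x : ℚbar) :
    x ∈ (FDE_conj c A).nonunits ↔ (c⁻¹ : GQ) x ∈ A.nonunits := by
  rw [FDE_mem_nonunits_iff, FDE_mem_nonunits_iff, FDE_mem_conj, map_inv₀]
  simp

/-- A conjugate of a Frobenius element is a Frobenius element. -/
theorem FDE_isFrob_conj {ℓ : ℕ} (hℓ : ℓ.Prime) {σ : GQ} (h : GR_IsFrob ℓ σ) (c : GQ) :
    GR_IsFrob ℓ (c * σ * c⁻¹) := by
  obtain ⟨A, hA, hσ⟩ := h
  have halg : ∀ x : ℚbar, IsAlgebraic ℤ x := fun x =>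
    (IsFractionRing.isAlgebraic_iff ℤ ℚ ℚbar).mpr
      ((AlgebraicClosure.isAlgebraic ℚ).isAlgebraic x)
  have hA' : (FDE_conj c A).LiesOverPrime ℓ := by
    show (ℓ : ℚbar) ∈ (FDE_conj c A).nonunits
    rw [FDE_mem_conj_nonunits, map_natCast]
    exact hA
  refine ⟨FDE_conj c A, hA', isFrobeniusAt_of_forall_isIntegral halg hℓ _ hA' _ ?_⟩
  intro x hx
  rw [FDE_mem_conj_nonunits]
  have hx' : (c⁻¹ : GQ) x ∈ A :=
    mem_valuationSubring_of_isIntegral_int A (hx.map ((c⁻¹ : GQ).toAlgHom.restrictScalars ℤ))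
  have h1 := GR_frob_congr hσ _ hx'
  have h2 : (c⁻¹ : GQ) ((c * σ * c⁻¹) x - x ^ ℓ) = σ ((c⁻¹ : GQ) x) - ((c⁻¹ : GQ) x) ^ ℓ := by
    rw [map_sub, map_pow]
    congr 1
    show (c⁻¹ * (c * σ * c⁻¹)) x = _
    rw [show c⁻¹ * (c * σ * c⁻¹) = σ * c⁻¹ by group]
    rfl
  rw [h2]
  exact h1

/-- **(FDE)** elementwise Frobenius density in `G_ℚ`. -/
theorem FDE_exists (g : GQ) (L : IntermediateField ℚ ℚbar) [FiniteDimensional ℚ L]
    (T : Finset ℕ) :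
    ∃ (ℓ : ℕ) (σ : GQ) (m : ℕ), ℓ.Prime ∧ ℓ ∉ T ∧ GR_IsFrob ℓ σ ∧ ∀ x ∈ L, g x = (σ ^ m) x := by
  haveI hnormal : Normal ℚ ℚbar := (frobExists_isGalois).to_normal
  set F : IntermediateField ℚ ℚbar := IntermediateField.normalClosure ℚ L ℚbar with hF
  haveI : Normal ℚ F := normalClosure.normal ℚ L ℚbar
  haveI : FiniteDimensional ℚ F := normalClosure.is_finiteDimensional ℚ L ℚbar
  have hLF : L ≤ F := IntermediateField.le_normalClosure L
  haveI : NumberField F := ⟨⟩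
  haveI : IsGalois ℚ F := ⟨⟩
  obtain ⟨ℓ, 𝔏, h, hℓ, hℓT, h𝔏, hℓ𝔏, hin, hfrob, hz⟩ :=
    FDN_frobenius F (AlgEquiv.restrictNormalHom F g) T
  obtain ⟨A, σ, hA, hσ⟩ := exists_isFrobeniusAt ℓ hℓ
  obtain ⟨τ, hτ⟩ := GR_nf_conj hℓ 𝔏 (GR_primeBelow F A) h𝔏 (GR_primeBelow_isPrime F A) hℓ𝔏
    (GR_natCast_mem_primeBelow F A hA) hin h (AlgEquiv.restrictNormalHom F σ) hfrob
    (GR_res_frob F A hσ)
  obtain ⟨τ', rfl⟩ := AlgEquiv.restrictNormalHom_surjective ℚbar τ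
  have h5 : AlgEquiv.restrictNormalHom F (τ'⁻¹ * σ * τ'⁻¹⁻¹) = h := by
    rw [inv_inv, map_mul, map_mul, map_inv, hτ]
    group
  have h6 : AlgEquiv.restrictNormalHom F g ∈ Subgroup.zpowers h := by
    rw [hz]
    exact Subgroup.mem_zpowers _
  have hfin : IsOfFinOrder h := isOfFinOrder_of_finite h
  rw [← hfin.mem_powers_iff_mem_zpowers] at h6
  obtain ⟨m, hm⟩ := (Submonoid.mem_powers_iff _ _).mp h6
  refine ⟨ℓ, τ'⁻¹ * σ * τ'⁻¹⁻¹, m, hℓ, hℓT, FDE_isFrob_conj hℓ ⟨A, hA, hσ⟩ τ'⁻¹, ?_⟩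
  intro x hx
  have hxF : x ∈ F := hLF hx
  have h7 : AlgEquiv.restrictNormalHom F ((τ'⁻¹ * σ * τ'⁻¹⁻¹) ^ m) =
      AlgEquiv.restrictNormalHom F g := by
    rw [map_pow, h5, hm]
  have h8 := AlgEquiv.restrictNormal_commutes ((τ'⁻¹ * σ * τ'⁻¹⁻¹) ^ m) F ⟨x, hxF⟩
  have h9 := AlgEquiv.restrictNormal_commutes g F ⟨x, hxF⟩
  have h10 : ((AlgEquiv.restrictNormalHom F ((τ'⁻¹ * σ * τ'⁻¹⁻¹) ^ m) (⟨x, hxF⟩ : F) : F) : ℚbar)
      = ((AlgEquiv.restrictNormalHom F g (⟨x, hxF⟩ : F) : F) : ℚbar) := by rw [h7]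
  exact (h9.symm.trans (h10.symm.trans h8))

/-- **(FDE)** in the exact shape of `S31_FDEStmt` (NOTES/items/30_route.md). -/
theorem FDE_stmt : ∀ (g : GQ) (L : IntermediateField ℚ (AlgebraicClosure ℚ)),
    FiniteDimensional ℚ L → ∀ T₀ : Finset ℕ,
    ∃ (ℓ : ℕ) (σ : GQ) (m : ℕ), ℓ.Prime ∧ ℓ ∉ T₀ ∧ GR_IsFrob ℓ σ ∧ ∀ x ∈ L, g x = (σ ^ m) x :=
  fun g L hL T₀ => by
    haveI := hL
    exact FDE_exists g L T₀

/-- **(FDE)**, subgroup form. -/
theorem FDE_exists_mem (g : GQ) (U : Subgroup GQ) (hU : GR_IsOpen U) (T : Finset ℕ) :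
    ∃ (ℓ : ℕ) (σ : GQ) (m : ℕ), ℓ.Prime ∧ ℓ ∉ T ∧ GR_IsFrob ℓ σ ∧ g⁻¹ * σ ^ m ∈ U := by
  obtain ⟨L, hL, hLU⟩ := hU
  haveI := hL
  obtain ⟨ℓ, σ, m, hℓ, hℓT, hσ, hg⟩ := FDE_exists g L T
  refine ⟨ℓ, σ, m, hℓ, hℓT, hσ, hLU _ fun x hx => ?_⟩
  show (g⁻¹ : GQ) ((σ ^ m) x) = x
  rw [← hg x hx]
  show (g⁻¹ * g) x = x
  rw [inv_mul_cancel]
  rfl

end Fermat.Agent.S31
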