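import Mathlib
import Fermat.Agent.S31.Asm
import Fermat.Agent.S31.FaithSat
import Fermat.Agent.S31.FrobElt
import Fermat.Agent.S31.CycK
import Fermat.Agent.GalRep.TwrFinal
import Fermat.Agent.GalRep.Fin

/-!
# Item 30 (S31): final wiring (helper11)

* `S31_fs`, `S31_cycK` : the packages (FS) (helper1) and (CYCK) (helper21) in the shape of
  `S31/Asm.lean`.
* `S31_of_tower` : the statement of S31 from an inhabitant of the Galois–Hecke tower
  `GR_Tower p N (parInt N) (GR_hT N)`.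
* `S31_of_packages` : the statement of S31 from the geometric packages of track 4 that are still
  open (KAPPA, HECKE + ES, UNRAM).
-/

set_option autoImplicit false
set_option linter.unusedSectionVars false
set_option linter.unusedVariables false
set_option linter.style.haveILetI false

open scoped TensorProduct

namespace Fermat.Agent.S31

open Fermat.Agent.GalRep Fermat.Agent.S16 CuspForm

/-- package (FS). -/
noncomputable def S31_fs (N : ℕ) [NeZero N] (S : Set ℕ) (p : ℕ) : S31_FS N S p where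
  act := FS_act N S
  act_T := fun hℓ hℓN hℓS => FS_act_T N S hℓ hℓN hℓS
  c := Classical.choose (FS_main N S p)
  sat := fun K t h => by
    obtain ⟨t', ht'⟩ := Classical.choose_spec (FS_main N S p) K t h
    refine ⟨t', ?_⟩
    rw [ht', zsmul_eq_mul]
    push_cast
    rfl

/-- package (CYCK). -/
noncomputable def S31_cycK (p : ℕ) [Fact p.Prime] (K : ℕ) : S31_CycK p K where
  ε := CYK_eps p K
  fin := CYK_fin p K
  frob := CYK_frob p K
  unram := CYK_unram p K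

variable {p : ℕ} {N : ℕ} [NeZero N] {S : Finset ℕ}
  {𝒪 : Type} [CommRing 𝒪] [IsDomain 𝒪] [IsDiscreteValuationRing 𝒪]
  [IsAdicComplete (IsLocalRing.maximalIdeal 𝒪) 𝒪]
  {θ : CuspForm.heckeAlgebra N 2 (↑S : Set ℕ) →+* IsLocalRing.ResidueField 𝒪}
  {T : Type} [CommRing T] [IsLocalRing T] [IsNoetherianRing T]
  [IsAdicComplete (IsLocalRing.maximalIdeal T) T] [Algebra 𝒪 T] [IsLocalHom (algebraMap 𝒪 T)]
  [Module.Finite 𝒪 T] [Module.Free 𝒪 T]

/-- **S31 from the tower.** -/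
theorem S31_of_tower (tw : GR_Tower p N ↥(parInt N) (GR_hT N)) (hp : p.Prime)
    (hp𝒪 : (p : 𝒪) ∈ IsLocalRing.maximalIdeal 𝒪) (hpS : p ∈ S)
    (hNS : ∀ q : ℕ, q.Prime → q ∣ N → q ∈ S)
    (H : CuspForm.HeckeGaloisRepDatum N (↑S : Set ℕ) 𝒪 θ T)
    (q : ℕ) (hq : q.Prime) (hqS : q ∉ S) :
    H.ρ.IsUnramifiedAt q :=
  haveI : Fact p.Prime := ⟨hp⟩
  S31_asm hpS hp𝒪 hNS H tw (S31_fs N (↑S : Set ℕ) p) FDE_stmt (S31_cycK p) q hq hqS

/-- **S31 from the open geometric packages of track 4** (KAPPA, HECKE + ES, UNRAM). -/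
theorem S31_of_packages
    (hKappa : ∀ (N : ℕ) [NeZero N], GR_KappaStmt N)
    (hHecke : ∀ (N : ℕ) [NeZero N] (ℓ : ℕ) [Fact ℓ.Prime], Nonempty (GR_HeckeES N ℓ))
    (hUnram : ∀ (N : ℕ) [NeZero N], GR_UnramStmt N)
    (hp : p.Prime)
    (hp𝒪 : (p : 𝒪) ∈ IsLocalRing.maximalIdeal 𝒪) (hpS : p ∈ S)
    (hNS : ∀ q : ℕ, q.Prime → q ∣ N → q ∈ S)
    (H : CuspForm.HeckeGaloisRepDatum N (↑S : Set ℕ) 𝒪 θ T)
    (q : ℕ) (hq : q.Prime) (hqS : q ∉ S) :
    H.ρ.IsUnramifiedAt q := by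
  haveI : Fact p.Prime := ⟨hp⟩
  obtain ⟨tw⟩ := GR_tower N p (hKappa N) (fun ℓ _ => hHecke N ℓ) (hUnram N) (GR_fin N (hKappa N))
  exact S31_of_tower tw hp hp𝒪 hpS hNS H q hq hqS

end Fermat.Agent.S31
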